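import Fermat.Agent.S52.LAUT.Main
import Fermat.Agent.S52.HENSEL.Main

/-!
# S52 / [LAU-TORS]: the structure theorem with the Hensel inputs discharged (prefix `s52q_`)
-/

set_option autoImplicit false

namespace Fermat.Agent.S52

open Polynomial WeierstrassCurve WeierstrassCurve.Affine Fermat.Agent.S13

theorem s52q_lift_closed (K : Type*) [Field K] : s52q_Lift_stmt K :=
  fun f hlead α h0 h1 => s52k_lift f hlead α h0 h1

theorem s52q_splits_closed (K : Type*) [Field K] [IsAlgClosed K] : s52q_Splits_stmt K :=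
  fun f hlead hsep => s52k_splits f hlead hsep

/-- **Structure of `W[5]`** for a short curve with good reduction over `K⟦u⟧`. -/
theorem s52q_struct_closed {K : Type*} [Field K] [IsAlgClosed K] [CharZero K]
    (a b : PowerSeries K)
    (hΔ : 4 * (PowerSeries.constantCoeff a) ^ 3 + 27 * (PowerSeries.constantCoeff b) ^ 2 ≠ 0) :
    ∃ (R : Finset (PowerSeries K)) (η : PowerSeries K → PowerSeries K),
      R.card = 12 ∧ Set.InjOn PowerSeries.constantCoeff (R : Set (PowerSeries K)) ∧
      (∀ φ ∈ R, η φ ^ 2 = φ ^ 3 + a * φ + b ∧ PowerSeries.constantCoeff (η φ) ≠ 0) ∧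
      (∀ φ ∈ R, (ldC (ldPoly (s52n_short (PowerSeries.constantCoeff a)
        (PowerSeries.constantCoeff b))) 2).eval (PowerSeries.constantCoeff φ) = 0) ∧
      ∀ x : LaurentSeries K, (ldC (ldPoly (s52q_W a b)) 2).eval x = 0 ↔
        ∃ φ ∈ R, x = s52q_ι K φ :=
  s52q_struct (s52q_lift_closed K) (s52q_splits_closed K) a b hΔ

end Fermat.Agent.S52
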