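import Fermat.Agent.S13.Ladder.Vieta
import Fermat.Agent.S13.Ladder.Integral
import Fermat.Agent.S52.NOS.Short

/-!
# S52 / [LAU-TORS]: the 5-torsion of a curve with good reduction over `K⟦u⟧` is rational over
`K⸨u⸩` (prefix `s52q_`)

`K` algebraically closed of characteristic zero, `a b : K⟦u⟧` with `4 a(0)³ + 27 b(0)² ≠ 0`,
`W : y² = x³ + a x + b` over `Ω = K⸨u⸩`.  From Hensel's lemma in `K⟦u⟧` (two Props, proved in
`S52/HENSEL`): all `25` points of `W[5]` are rational over `Ω`, with coordinates in `K⟦u⟧`, unit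
`y`-coordinates, and distinct reductions modulo `u`.
-/

set_option autoImplicit false

namespace Fermat.Agent.S52

open Polynomial WeierstrassCurve WeierstrassCurve.Affine Fermat.Agent.S13

/-- Hensel: a simple root of the reduction lifts uniquely. -/
def s52q_Lift_stmt (K : Type*) [Field K] : Prop :=
  ∀ f : Polynomial (PowerSeries K), IsUnit f.leadingCoeff → ∀ α : K,
    (f.map PowerSeries.constantCoeff).eval α = 0 →
    (f.map PowerSeries.constantCoeff).derivative.eval α ≠ 0 →
    ∃! φ : PowerSeries K, PowerSeries.constantCoeff φ = α ∧ f.eval φ = 0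

/-- Hensel: a polynomial with separable reduction splits over `K⟦u⟧`. -/
def s52q_Splits_stmt (K : Type*) [Field K] : Prop :=
  ∀ f : Polynomial (PowerSeries K), IsUnit f.leadingCoeff →
    (f.map PowerSeries.constantCoeff).Separable →
    ∃ R : Finset (PowerSeries K), R.card = f.natDegree ∧
      f = C f.leadingCoeff * ∏ φ ∈ R, (X - C φ) ∧ Set.InjOn PowerSeries.constantCoeff (R : Set (PowerSeries K))

section Residue

variable {K : Type*} [Field K] [IsAlgClosed K] [CharZero K]

omit [IsAlgClosed K] in
/-- On a smooth short curve over a field of characteristic zero, the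
`x`-coordinate of a nonzero point of order `5` is not a root of the cubic. -/
theorem s52q_cubic_ne_zero (a₀ b₀ : K) (hΔ : 4 * a₀ ^ 3 + 27 * b₀ ^ 2 ≠ 0) (r : K)
    (hr : (ldC (ldPoly (s52n_short a₀ b₀)) 2).eval r = 0) : r ^ 3 + a₀ * r + b₀ ≠ 0 := by
  classical
  intro h0
  set W₀ : Affine K := s52n_short a₀ b₀ with hW₀
  have hΔ' : W₀.Δ ≠ 0 := by
    rw [hW₀, s52n_short_Δ]
    exact mul_ne_zero (by norm_num) hΔ
  have heq : W₀.Equation r 0 := by
    rw [Affine.equation_iff]
    simp only [hW₀, s52n_short_a₁, s52n_short_a₂, s52n_short_a₃, s52n_short_a₄, s52n_short_a₆]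
    linear_combination -h0
  have hns : W₀.Nonsingular r 0 := (Affine.equation_iff_nonsingular_of_Δ_ne_zero hΔ').1 heq
  have h5 : (2 * 2 + 1) • Point.some r 0 hns = 0 := (ld_odd_nsmul_eq_zero_iff hns 2).2 hr
  have h2 : Point.some r 0 hns + Point.some r 0 hns = 0 := by
    refine Point.add_self_of_Y_eq ?_
    simp [hW₀]
  have h1 : Point.some r 0 hns = 0 := by
    have e : Point.some r 0 hns
        = (2 * 2 + 1) • Point.some r 0 hns
          - 2 • (Point.some r 0 hns + Point.some r 0 hns) := by
      rw [smul_add, ← two_nsmul, ← mul_nsmul]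
      have : (2 * 2 + 1) • Point.some r 0 hns
          = (2 * 2) • Point.some r 0 hns + Point.some r 0 hns := by
        rw [add_nsmul, one_nsmul]
      rw [this]; abel
    rw [e, h5, h2, smul_zero, sub_zero]
  exact Point.some_ne_zero hns h1

end Residue

section Main

variable {K : Type*} [Field K] [IsAlgClosed K] [CharZero K]

omit [IsAlgClosed K] in
/-- `K⟦u⟧` has characteristic zero. -/
theorem s52q_charZero_powerSeries : CharZero (PowerSeries K) :=
  charZero_of_injective_ringHom (f := (PowerSeries.C : K →+* PowerSeries K))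
    PowerSeries.C_injective

/-- The coercion `K⟦u⟧ → K⸨u⸩`. -/
noncomputable abbrev s52q_ι (K : Type*) [Field K] : PowerSeries K →+* LaurentSeries K :=
  algebraMap (PowerSeries K) (LaurentSeries K)

omit [IsAlgClosed K] [CharZero K] in
theorem s52q_ι_injective : Function.Injective (s52q_ι K) :=
  IsFractionRing.injective (PowerSeries K) (LaurentSeries K)

/-- The curve `y² = x³ + a x + b` over `K⸨u⸩`. -/
noncomputable abbrev s52q_W (a b : PowerSeries K) : Affine (LaurentSeries K) :=
  s52n_short (s52q_ι K a) (s52q_ι K b)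

/-- **Structure of `W[5]`**: twelve `x`-coordinates in `K⟦u⟧`, distinct modulo `u`, and unit
square roots of the cubic. -/
theorem s52q_struct (hL : s52q_Lift_stmt K) (hS : s52q_Splits_stmt K) (a b : PowerSeries K)
    (hΔ : 4 * (PowerSeries.constantCoeff a) ^ 3 + 27 * (PowerSeries.constantCoeff b) ^ 2 ≠ 0) :
    ∃ (R : Finset (PowerSeries K)) (η : PowerSeries K → PowerSeries K),
      R.card = 12 ∧ Set.InjOn PowerSeries.constantCoeff (R : Set (PowerSeries K)) ∧
      (∀ φ ∈ R, η φ ^ 2 = φ ^ 3 + a * φ + b ∧ PowerSeries.constantCoeff (η φ) ≠ 0) ∧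
      (∀ φ ∈ R, (ldC (ldPoly (s52n_short (PowerSeries.constantCoeff a)
        (PowerSeries.constantCoeff b))) 2).eval (PowerSeries.constantCoeff φ) = 0) ∧
      ∀ x : LaurentSeries K, (ldC (ldPoly (s52q_W a b)) 2).eval x = 0 ↔
        ∃ φ ∈ R, x = s52q_ι K φ := by
  classical
  have : CharZero (PowerSeries K) := s52q_charZero_powerSeries
  set a₀ := PowerSeries.constantCoeff a with ha₀
  set b₀ := PowerSeries.constantCoeff b with hb₀
  set WA : WeierstrassCurve (PowerSeries K) := s52n_short a b with hWA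
  set fA : Polynomial (PowerSeries K) := ldC (ldPoly WA) 2 with hfA
  -- degree and leading coefficient
  have hdeg : fA.natDegree = 12 := (ldC_natDegree WA 2).1
  have hlead : fA.leadingCoeff = -5 := by
    rw [Polynomial.leadingCoeff, hdeg]
    have := (ldC_top WA 2).top
    norm_num at this ⊢
    exact this
  have hunit : IsUnit fA.leadingCoeff := by
    rw [hlead, PowerSeries.isUnit_iff_constantCoeff]
    simp only [map_neg, map_ofNat, IsUnit.neg_iff]
    exact isUnit_iff_ne_zero.2 (by norm_num)
  -- the reduction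
  have hred : fA.map PowerSeries.constantCoeff = ldC (ldPoly (s52n_short a₀ b₀)) 2 := by
    rw [hfA, ldC_ldPoly_map, hWA, s52n_short_map]
  have hΔ₀ : (s52n_short a₀ b₀).Δ ≠ 0 := by
    rw [s52n_short_Δ]
    exact mul_ne_zero (by norm_num) hΔ
  have hsep : (fA.map PowerSeries.constantCoeff).Separable := by
    rw [hred]
    obtain ⟨hnd, -⟩ := ldC_roots_nodup (W := (s52n_short a₀ b₀ : Affine K)) hΔ₀ 2
    exact (Polynomial.nodup_roots_iff_of_splits (ldC_natDegree _ 2).2 (IsAlgClosed.splits _)).1 hnd
  obtain ⟨R, hRcard, hRfac, hRinj⟩ := hS fA hunit hsep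
  -- the elements of R are roots
  have hRroot : ∀ φ ∈ R, fA.eval φ = 0 := by
    intro φ hφ
    rw [hRfac, Polynomial.eval_mul, Polynomial.eval_prod]
    refine mul_eq_zero_of_right _ (Finset.prod_eq_zero hφ ?_)
    simp
  have hRred : ∀ φ ∈ R, (ldC (ldPoly (s52n_short a₀ b₀)) 2).eval
      (PowerSeries.constantCoeff φ) = 0 := by
    intro φ hφ
    rw [← hred, Polynomial.eval_map_apply, hRroot φ hφ, map_zero]
  -- square roots of the cubic
  have hη : ∀ φ : PowerSeries K, ∃ η : PowerSeries K, φ ∈ R →
      (η ^ 2 = φ ^ 3 + a * φ + b ∧ PowerSeries.constantCoeff η ≠ 0) := by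
    intro φ
    by_cases hφ : φ ∈ R
    swap
    · exact ⟨0, fun h => absurd h hφ⟩
    set g : PowerSeries K := φ ^ 3 + a * φ + b with hg
    have hg0 : PowerSeries.constantCoeff g ≠ 0 := by
      have := s52q_cubic_ne_zero a₀ b₀ hΔ _ (hRred φ hφ)
      simpa [hg] using this
    obtain ⟨α, hα⟩ := IsAlgClosed.exists_pow_nat_eq (PowerSeries.constantCoeff g) (n := 2)
      (by norm_num)
    have hα0 : α ≠ 0 := by
      rintro rfl
      apply hg0
      rw [← hα]; norm_num
    set q : Polynomial (PowerSeries K) := X ^ 2 - C g with hq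
    have hqlead : q.leadingCoeff = 1 := by
      have : q.Monic := by
        rw [hq]
        exact Polynomial.monic_X_pow_sub_C g (by norm_num)
      exact this
    have hqmap : q.map PowerSeries.constantCoeff
        = X ^ 2 - C (PowerSeries.constantCoeff g) := by
      simp [hq]
    obtain ⟨η, ⟨hη1, hη2⟩, -⟩ := hL q (by rw [hqlead]; exact isUnit_one) α
      (by rw [hqmap]; simp [hα])
      (by
        rw [hqmap]
        simp only [derivative_sub, derivative_X_pow, derivative_C, sub_zero, Nat.cast_ofNat,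
          Nat.add_one_sub_one, pow_one, eval_mul, eval_C, eval_X]
        exact mul_ne_zero (by norm_num) hα0)
    refine ⟨η, fun _ => ⟨?_, by rw [hη1]; exact hα0⟩⟩
    have : η ^ 2 - g = 0 := by simpa [hq] using hη2
    exact sub_eq_zero.1 this
  choose η hηspec using hη
  refine ⟨R, η, by rw [hRcard, hdeg], hRinj, fun φ hφ => hηspec φ hφ, hRred, fun x => ?_⟩
  -- roots over the Laurent series
  have hfW : ldC (ldPoly (s52q_W a b)) 2 = fA.map (s52q_ι K) := by
    rw [hfA, ldC_ldPoly_map, hWA, s52n_short_map]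
  rw [hfW, hRfac, Polynomial.map_mul, Polynomial.map_C, Polynomial.eval_mul, Polynomial.eval_C,
    Polynomial.map_prod, Polynomial.eval_prod]
  have hl0 : s52q_ι K fA.leadingCoeff ≠ 0 := by
    intro h0
    have := s52q_ι_injective (K := K) (a₁ := fA.leadingCoeff) (a₂ := 0) (by rw [h0, map_zero])
    exact hunit.ne_zero this
  constructor
  · intro h
    rcases mul_eq_zero.1 h with h | h
    · exact absurd h hl0
    · obtain ⟨φ, hφ, h1⟩ := Finset.prod_eq_zero_iff.1 h
      refine ⟨φ, hφ, ?_⟩
      simp only [Polynomial.map_sub, Polynomial.map_X, Polynomial.map_C, eval_sub, eval_X,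
        eval_C] at h1
      exact sub_eq_zero.1 h1
  · rintro ⟨φ, hφ, rfl⟩
    refine mul_eq_zero_of_right _ (Finset.prod_eq_zero hφ ?_)
    simp

end Main

end Fermat.Agent.S52
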